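/-
N4-FULL / block G (helper4): **a two-dimensional residual representation from the
Eichler–Shimura operator identity**, over an ARBITRARY field of characteristic `p`
(no passage to the algebraic closure, no Schur-index descent).

Input: a field `k` of characteristic `p`, a representation `ρ` of a group `G` with finite image on
a nonzero finite-dimensional `k`-vector space `W` (not necessarily irreducible), a character
`χ : G →* kˣ` and a function `s : G → k` with `ρ(g) + χ(g) ρ(g)⁻¹ = s(g)` for all `g`
(`OpIdentity ρ χ s`).  Output (`exists_residual_rep`): a two-dimensional representation `ρ'` of `G`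
over `k` with `charpoly ρ'(g) = X² - s(g) X + χ(g)`, trivial on `ker ρ ∩ ker χ`.

Proof: pass to an irreducible subrepresentation `M`; the span `A` of `ρ(G)` acts *quadratically*
(`lin_quadratic`: every `a = ∑ c_g ρ(g)` satisfies `a² = σ a - ν`, by the bilinear identity
`isScal_bilin`); Jacobson density over `D = End_A M` shows that either `dim_k M = 2`
(`finrank_eq_two_of_linearIndependent_two`) or `A` has no zero divisors, in which case the subring
generated by the finite group `ρ(G)` is a finite domain, hence a field with cyclic unit group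
(little Wedderburn), `A = k[θ]` and `dim_k M ≤ 2` (`finrank_le_two_of_domain`).  In dimension `2`
Cayley–Hamilton gives the characteristic polynomial (`charpoly_rho`; scalar elements are handled by
irreducibility), in dimension `1` one takes `ψ ⊕ χ ψ⁻¹` (`diagRep`).
-/
import Mathlib

set_option autoImplicit false

open Module

namespace Fermat.Agent.N4F.G.ResidualRep

section Density

variable {R : Type*} [Ring R] {M : Type*} [AddCommGroup M] [Module R M] [IsSimpleModule R M]
  {k : Type*} [Field k] [Module k M] [Algebra k R] [IsScalarTower k R M]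

/-- A ring acting **quadratically** on a module: every element satisfies a monic quadratic
equation with coefficients in `k`. -/
def ActsQuadratically (R : Type*) [Ring R] (k : Type*) [Field k] (M : Type*) [AddCommGroup M]
    [Module R M] [Module k M] : Prop :=
  ∀ r : R, ∃ s n : k, ∀ m : M, r • r • m = s • r • m - n • m

omit [IsSimpleModule R M] in
lemma smulEnd_apply (c : k) (m : M) : (c • (1 : End R M)) m = c • m := rfl

/-- A simple module on which the ring acts quadratically has no three vectors which are linearly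
independent over the endomorphism ring. -/
theorem not_linearIndependent_three (hq : ActsQuadratically R k M) (v : Fin 3 → M)
    (hv : LinearIndependent (End R M) v) : False := by
  classical
  let p : Submodule (End R M) M := Submodule.span (End R M) (Set.range v)
  let b : Basis (Fin 3) (End R M) p := Basis.span hv
  let f₀ : p →ₗ[End R M] M := b.constr ℕ ![v 1, v 2, 0]
  obtain ⟨g, hg⟩ := LinearMap.exists_extend f₀
  have hb : ∀ i, ((b i : p) : M) = v i := fun i => congrArg Subtype.val (Basis.span_apply hv i)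
  have hgv : ∀ i, g (v i) = ![v 1, v 2, 0] i := by
    intro i
    have h1 : g ((b i : p) : M) = f₀ (b i) := congrArg (fun φ => φ (b i)) hg
    rw [hb] at h1
    rw [h1]
    exact b.constr_basis ℕ _ i
  obtain ⟨r, hr⟩ := jacobson_density (R := R) g {v 0, v 1, v 2}
  have h0 : r • v 0 = v 1 := by
    rw [← hr (v 0) (by simp), hgv 0]; rfl
  have h1 : r • v 1 = v 2 := by
    rw [← hr (v 1) (by simp), hgv 1]; rfl
  obtain ⟨s, n, hsn⟩ := hq r
  have h2 := hsn (v 0)
  rw [h0, h1] at h2
  have h3 : ∑ i, (![n • (1 : End R M), -(s • (1 : End R M)), 1] i) • v i = 0 := by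
    rw [Fin.sum_univ_three]
    simp only [Matrix.cons_val_zero, Matrix.cons_val_one, Matrix.cons_val_two,
      Matrix.head_cons, Matrix.tail_cons]
    show (n • (1 : End R M)) (v 0) + (-(s • (1 : End R M))) (v 1) + (1 : End R M) (v 2) = 0
    rw [LinearMap.neg_apply, smulEnd_apply, smulEnd_apply, Module.End.one_apply, h2]
    abel
  have h4 := Fintype.linearIndependent_iff.1 hv _ h3 2
  have : Nontrivial (End R M) := inferInstance
  exact one_ne_zero h4

/-- If a simple module on which the ring acts quadratically has two vectors which are linearly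
independent over the endomorphism ring, then every endomorphism is a scalar. -/
theorem end_eq_smul_one_of_linearIndependent_two (hq : ActsQuadratically R k M) (v : Fin 2 → M)
    (hv : LinearIndependent (End R M) v) (d : End R M) : ∃ c : k, d = c • (1 : End R M) := by
  classical
  let p : Submodule (End R M) M := Submodule.span (End R M) (Set.range v)
  let b : Basis (Fin 2) (End R M) p := Basis.span hv
  let f₀ : p →ₗ[End R M] M := b.constr ℕ ![d (v 0), 0]
  obtain ⟨g, hg⟩ := LinearMap.exists_extend f₀
  have hb : ∀ i, ((b i : p) : M) = v i := fun i => congrArg Subtype.val (Basis.span_apply hv i)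
  have hgv : ∀ i, g (v i) = ![d (v 0), 0] i := by
    intro i
    have h1 : g ((b i : p) : M) = f₀ (b i) := congrArg (fun φ => φ (b i)) hg
    rw [hb] at h1
    rw [h1]
    exact b.constr_basis ℕ _ i
  obtain ⟨r, hr⟩ := jacobson_density (R := R) g {v 0, v 1}
  have h0 : r • v 0 = d (v 0) := by
    rw [← hr (v 0) (by simp), hgv 0]; rfl
  have h1 : r • v 1 = 0 := by
    rw [← hr (v 1) (by simp), hgv 1]; rfl
  obtain ⟨s, n, hsn⟩ := hq r
  have hv1 : v 1 ≠ 0 := hv.ne_zero 1
  have hv0 : v 0 ≠ 0 := hv.ne_zero 0
  have hn : n = 0 := by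
    have h2 := hsn (v 1)
    rw [h1, smul_zero, smul_zero, zero_sub, eq_comm, neg_eq_zero] at h2
    exact (smul_eq_zero.1 h2).resolve_right hv1
  have h2 := hsn (v 0)
  rw [h0, hn, zero_smul, sub_zero, ← map_smul d r, h0] at h2
  -- `d (d v₀) = s • d v₀`
  by_cases hd : d = 0
  · exact ⟨0, by rw [hd, zero_smul]⟩
  · refine ⟨s, ?_⟩
    have hinj : Function.Injective d := LinearMap.injective_of_ne_zero hd
    have h3 : d (d (v 0)) = d (s • v 0) := by
      rw [h2, LinearMap.map_smul_of_tower]
    have h4 : d (v 0) = s • v 0 := hinj h3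
    -- two `R`-linear maps which agree at a nonzero vector of a simple module agree
    have h5 : (d - s • (1 : End R M)) (v 0) = 0 := by
      rw [LinearMap.sub_apply, smulEnd_apply, h4, sub_self]
    by_contra hne
    have h6 : d - s • (1 : End R M) ≠ 0 := sub_ne_zero.2 hne
    exact hv0 (LinearMap.injective_of_ne_zero h6 (h5.trans (map_zero _).symm))

/-- If a simple module on which the ring acts quadratically has two vectors which are linearly
independent over the endomorphism ring, then it is of dimension `2` over `k`. -/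
theorem finrank_eq_two_of_linearIndependent_two (hq : ActsQuadratically R k M) (v : Fin 2 → M)
    (hv : LinearIndependent (End R M) v) : Module.finrank k M = 2 := by
  classical
  have hv0 : v 0 ≠ 0 := hv.ne_zero 0
  have hli : LinearIndependent k v := by
    rw [Fintype.linearIndependent_iff]
    intro e he i
    have h1 : ∑ j, (e j • (1 : End R M)) • v j = 0 := he
    have h2 := Fintype.linearIndependent_iff.1 hv _ h1 i
    have h3 : e i • v 0 = 0 := by
      rw [← smulEnd_apply (R := R), h2, LinearMap.zero_apply]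
    exact (smul_eq_zero.1 h3).resolve_right hv0
  have hspan : ⊤ ≤ Submodule.span k (Set.range v) := by
    intro m _
    have h1 : ¬ LinearIndependent (End R M) (Fin.cons m v : Fin 3 → M) :=
      fun h => not_linearIndependent_three hq _ h
    rw [linearIndependent_finCons] at h1
    have h2 : m ∈ Submodule.span (End R M) (Set.range v) := by
      by_contra h
      exact h1 ⟨hv, h⟩
    obtain ⟨c, hc⟩ := (Submodule.mem_span_range_iff_exists_fun _).1 h2
    choose e he using fun i => end_eq_smul_one_of_linearIndependent_two hq v hv (c i)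
    rw [Submodule.mem_span_range_iff_exists_fun]
    refine ⟨e, ?_⟩
    rw [← hc]
    refine Finset.sum_congr rfl fun i _ => ?_
    rw [he i]
    rfl
  have b : Basis (Fin 2) k M := Basis.mk hli hspan
  rw [Module.finrank_eq_card_basis b, Fintype.card_fin]

omit [Algebra k R] [IsScalarTower k R M] in
/-- A vector killed by `r` and a vector not killed by `r` are linearly independent over the
endomorphism ring. -/
theorem linearIndependent_pair_of_smul (r : R) {m₁ m₂ : M} (h1 : m₁ ≠ 0) (h1' : r • m₁ = 0)
    (h2 : r • m₂ ≠ 0) : LinearIndependent (End R M) ![m₁, m₂] := by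
  rw [LinearIndependent.pair_iff]
  intro d e hde
  have h3 : r • (d • m₁ + e • m₂) = 0 := by rw [hde, smul_zero]
  have h4 : e (r • m₂) = 0 := by
    have : r • (d • m₁ + e • m₂) = d (r • m₁) + e (r • m₂) := by
      rw [smul_add]
      show r • d m₁ + r • e m₂ = _
      rw [map_smul, map_smul]
    rw [this, h1', map_zero, zero_add] at h3
    exact h3
  have he : e = 0 := by
    by_contra hne
    exact h2 (LinearMap.injective_of_ne_zero hne (h4.trans (map_zero _).symm))
  refine ⟨?_, he⟩
  rw [he, zero_smul, add_zero] at hde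
  by_contra hne
  exact h1 (LinearMap.injective_of_ne_zero hne ((hde : d m₁ = 0).trans (map_zero _).symm))

/-- **Dichotomy**: a simple module on which the ring acts quadratically is of dimension `2` over
`k`, or every element of the ring which kills a nonzero vector kills everything. -/
theorem finrank_eq_two_or_domain (hq : ActsQuadratically R k M) :
    Module.finrank k M = 2 ∨ ∀ (r : R) (m : M), m ≠ 0 → r • m = 0 → ∀ m' : M, r • m' = 0 := by
  by_cases hdom : ∀ (r : R) (m : M), m ≠ 0 → r • m = 0 → ∀ m' : M, r • m' = 0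
  · exact Or.inr hdom
  · left
    push Not at hdom
    obtain ⟨r, m₁, h1, h1', m₂, h2⟩ := hdom
    exact finrank_eq_two_of_linearIndependent_two hq _
      (linearIndependent_pair_of_smul r h1 h1' h2)

end Density

section Quadratic

variable {k : Type*} [Field k] {G : Type*} [Group G] {M : Type*} [AddCommGroup M] [Module k M]
  (ρ : Representation k G M) (χ : G →* kˣ) (s : G → k)

/-- Scalar endomorphisms. -/
def IsScal (x : End k M) : Prop := ∃ t : k, x = t • (1 : End k M)

omit [Field k] in
lemma isScal_zero' {k : Type*} [Field k] {M : Type*} [AddCommGroup M] [Module k M] :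
    IsScal (0 : End k M) := ⟨0, (zero_smul _ _).symm⟩

lemma IsScal.add {x y : End k M} (hx : IsScal x) (hy : IsScal y) : IsScal (x + y) := by
  obtain ⟨t, rfl⟩ := hx
  obtain ⟨u, rfl⟩ := hy
  exact ⟨t + u, (add_smul _ _ _).symm⟩

lemma IsScal.smul {x : End k M} (hx : IsScal x) (c : k) : IsScal (c • x) := by
  obtain ⟨t, rfl⟩ := hx
  exact ⟨c * t, (mul_smul _ _ _).symm⟩

/-- `c ↦ ∑ c_g ρ(g)`. -/
noncomputable def lin : (G →₀ k) →ₗ[k] End k M := Finsupp.linearCombination k (fun g => ρ g)

/-- `c ↦ ∑ c_g χ(g) ρ(g⁻¹)`. -/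
noncomputable def lin' : (G →₀ k) →ₗ[k] End k M :=
  Finsupp.linearCombination k (fun g => (χ g : k) • ρ g⁻¹)

lemma lin_single (g : G) (t : k) : lin ρ (Finsupp.single g t) = t • ρ g := by
  simp [lin]

lemma lin'_single (g : G) (t : k) :
    lin' ρ χ (Finsupp.single g t) = t • ((χ g : k) • ρ g⁻¹) := by
  simp [lin']

variable {ρ χ s}

/-- The operator identity `ρ(g) + χ(g) ρ(g)⁻¹ = s(g)`. -/
def OpIdentity (ρ : Representation k G M) (χ : G →* kˣ) (s : G → k) : Prop :=
  ∀ g, ρ g + (χ g : k) • ρ g⁻¹ = s g • (1 : End k M)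

lemma isScal_lin_add_lin' (h : OpIdentity ρ χ s) (c : G →₀ k) : IsScal (lin ρ c + lin' ρ χ c) := by
  induction c using Finsupp.induction_linear with
  | zero => simpa using isScal_zero'
  | add c₁ c₂ h₁ h₂ =>
    rw [map_add, map_add, add_add_add_comm]
    exact h₁.add h₂
  | single g t =>
    rw [lin_single, lin'_single, ← smul_add, h g]
    exact ⟨t * s g, (mul_smul _ _ _).symm⟩

lemma isScal_bilin_single (h : OpIdentity ρ χ s) (g g' : G) (t t' : k) :
    IsScal (lin ρ (Finsupp.single g t) * lin' ρ χ (Finsupp.single g' t') +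
      lin ρ (Finsupp.single g' t') * lin' ρ χ (Finsupp.single g t)) := by
  rw [lin_single, lin'_single, lin_single, lin'_single]
  have h1 := h (g * g'⁻¹)
  have e1 : ρ g * ρ g'⁻¹ = ρ (g * g'⁻¹) := (map_mul ρ _ _).symm
  have e2 : ρ g' * ρ g⁻¹ = ρ (g * g'⁻¹)⁻¹ := by
    rw [mul_inv_rev, inv_inv, map_mul]
  have e3 : (χ g : k) = (χ g' : k) * (χ (g * g'⁻¹) : k) := by
    rw [← Units.val_mul]
    congr 1
    rw [map_mul, map_inv, mul_comm (χ g), mul_inv_cancel_left]
  refine ⟨t * t' * (χ g' : k) * s (g * g'⁻¹), ?_⟩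
  rw [mul_smul (t * t' * (χ g' : k)), ← h1]
  simp only [smul_mul_assoc, mul_smul_comm, smul_add, e1, e2, e3, smul_smul]
  congr 1 <;> ring_nf

lemma isScal_bilin (h : OpIdentity ρ χ s) (c c' : G →₀ k) :
    IsScal (lin ρ c * lin' ρ χ c' + lin ρ c' * lin' ρ χ c) := by
  induction c using Finsupp.induction_linear with
  | zero => simpa using isScal_zero'
  | add c₁ c₂ h₁ h₂ =>
    have e : lin ρ (c₁ + c₂) * lin' ρ χ c' + lin ρ c' * lin' ρ χ (c₁ + c₂) =
        (lin ρ c₁ * lin' ρ χ c' + lin ρ c' * lin' ρ χ c₁) +
          (lin ρ c₂ * lin' ρ χ c' + lin ρ c' * lin' ρ χ c₂) := by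
      rw [map_add, map_add, add_mul, mul_add]
      abel
    rw [e]
    exact h₁.add h₂
  | single g t =>
    induction c' using Finsupp.induction_linear with
    | zero => simpa using isScal_zero'
    | add c₁ c₂ h₁ h₂ =>
      have e : lin ρ (Finsupp.single g t) * lin' ρ χ (c₁ + c₂) +
          lin ρ (c₁ + c₂) * lin' ρ χ (Finsupp.single g t) =
          (lin ρ (Finsupp.single g t) * lin' ρ χ c₁ + lin ρ c₁ * lin' ρ χ (Finsupp.single g t)) +
            (lin ρ (Finsupp.single g t) * lin' ρ χ c₂ +
              lin ρ c₂ * lin' ρ χ (Finsupp.single g t)) := by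
        rw [map_add, map_add, add_mul, mul_add]
        abel
      rw [e]
      exact h₁.add h₂
    | single g' t' => exact isScal_bilin_single h g g' t t'

lemma isScal_lin_mul_lin' (h : OpIdentity ρ χ s) (c : G →₀ k) :
    IsScal (lin ρ c * lin' ρ χ c) := by
  induction c using Finsupp.induction_linear with
  | zero => simpa using isScal_zero'
  | add c₁ c₂ h₁ h₂ =>
    have e : lin ρ (c₁ + c₂) * lin' ρ χ (c₁ + c₂) =
        lin ρ c₁ * lin' ρ χ c₁ + lin ρ c₂ * lin' ρ χ c₂ +
          (lin ρ c₁ * lin' ρ χ c₂ + lin ρ c₂ * lin' ρ χ c₁) := by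
      rw [map_add, map_add, add_mul, mul_add, mul_add]
      abel
    rw [e]
    exact (h₁.add h₂).add (isScal_bilin h c₁ c₂)
  | single g t =>
    rw [lin_single, lin'_single]
    refine ⟨t * t * (χ g : k), ?_⟩
    have e1 : ρ g * ρ g⁻¹ = 1 := by rw [← map_mul, mul_inv_cancel, map_one]
    simp only [smul_mul_assoc, mul_smul_comm, e1, smul_smul]
    congr 1
    ring

/-- **Every element of the span of `ρ(G)` satisfies a monic quadratic equation over `k`.** -/
theorem lin_quadratic (h : OpIdentity ρ χ s) (c : G →₀ k) :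
    ∃ σ ν : k, lin ρ c * lin ρ c = σ • lin ρ c - ν • (1 : End k M) := by
  obtain ⟨σ, hσ⟩ := isScal_lin_add_lin' h c
  obtain ⟨ν, hν⟩ := isScal_lin_mul_lin' h c
  refine ⟨σ, ν, ?_⟩
  have e : lin ρ c = σ • (1 : End k M) - lin' ρ χ c := by rw [← hσ]; abel
  calc lin ρ c * lin ρ c = lin ρ c * (σ • (1 : End k M) - lin' ρ χ c) := by rw [← e]
    _ = σ • lin ρ c - ν • (1 : End k M) := by
      rw [mul_sub, hν, mul_smul_comm, mul_one]

end Quadratic

section SpanAlg

variable {k : Type*} [Field k] {G : Type*} [Group G] {M : Type*} [AddCommGroup M] [Module k M]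
  (ρ : Representation k G M)

/-- The `k`-algebra spanned by `ρ(G)`. -/
noncomputable def spanAlg : Subalgebra k (End k M) := Algebra.adjoin k (Set.range ρ)

lemma rho_mem_spanAlg (g : G) : ρ g ∈ spanAlg ρ := Algebra.subset_adjoin ⟨g, rfl⟩

lemma closure_range_rho : Submonoid.closure (Set.range ρ) = MonoidHom.mrange ρ := by
  rw [← MonoidHom.coe_mrange, Submonoid.closure_eq]

lemma toSubmodule_spanAlg :
    Subalgebra.toSubmodule (spanAlg ρ) = Submodule.span k (Set.range ρ) := by
  rw [spanAlg, Algebra.adjoin_eq_span, closure_range_rho, MonoidHom.coe_mrange]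

lemma mem_spanAlg_iff (a : End k M) : a ∈ spanAlg ρ ↔ ∃ c : G →₀ k, lin ρ c = a := by
  rw [← Subalgebra.mem_toSubmodule, toSubmodule_spanAlg, ← Finsupp.range_linearCombination]
  rfl

variable {ρ}

theorem actsQuadratically_spanAlg {χ : G →* kˣ} {s : G → k} (h : OpIdentity ρ χ s) :
    ActsQuadratically (spanAlg ρ) k M := by
  rintro ⟨a, ha⟩
  obtain ⟨c, rfl⟩ := (mem_spanAlg_iff ρ a).1 ha
  obtain ⟨σ, ν, hq⟩ := lin_quadratic h c
  refine ⟨σ, ν, fun m => ?_⟩
  have := congrArg (fun φ : End k M => φ m) hq
  exact this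

/-- Irreducibility of a representation, in elementary form. -/
def Irred (ρ : Representation k G M) : Prop :=
  Nontrivial M ∧ ∀ N : Submodule k M, (∀ g, ∀ x ∈ N, ρ g x ∈ N) → N = ⊥ ∨ N = ⊤

theorem isSimpleModule_spanAlg (hirr : Irred ρ) : IsSimpleModule (spanAlg ρ) M := by
  have := hirr.1
  refine isSimpleModule_iff (spanAlg ρ) M |>.2 ⟨fun N => ?_⟩
  have h1 := hirr.2 (N.restrictScalars k) (fun g x hx => by
    have : (⟨ρ g, rho_mem_spanAlg ρ g⟩ : spanAlg ρ) • x ∈ N := N.smul_mem _ hx
    exact this)
  rcases h1 with h1 | h1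
  · left
    exact (Submodule.restrictScalars_eq_bot_iff _ _ _).1 h1
  · right
    exact (Submodule.restrictScalars_eq_top_iff _ _ _).1 h1

end SpanAlg


section FiniteImage

variable {k : Type*} [Field k] {G : Type*} [Group G] {M : Type*} [AddCommGroup M] [Module k M]
  {ρ : Representation k G M}

/-- The subring generated by a finite group of endomorphisms in characteristic `p` is finite. -/
theorem finite_subringClosure (p : ℕ) [hp : Fact p.Prime] [CharP k p]
    (hfin : (Set.range ρ).Finite) : Finite ↥(Subring.closure (Set.range ρ)) := by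
  have hset : (Subring.closure (Set.range ρ) : Set (End k M)) =
      (AddSubgroup.closure (Set.range ρ) : Set (End k M)) := by
    ext x
    rw [SetLike.mem_coe, Subring.mem_closure_iff, closure_range_rho, MonoidHom.coe_mrange]
    rfl
  have : Finite (Set.range ρ) := hfin
  have hfg : AddGroup.FG ↥(AddSubgroup.closure (Set.range ρ)) := inferInstance
  have htors : IsAddTorsion ↥(AddSubgroup.closure (Set.range ρ)) := by
    intro x
    rw [isOfFinAddOrder_iff_nsmul_eq_zero]
    refine ⟨p, hp.out.pos, ?_⟩
    apply Subtype.ext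
    show p • (x : End k M) = 0
    rw [← Nat.cast_smul_eq_nsmul k, CharP.cast_eq_zero, zero_smul]
  have h1 : Finite ↥(AddSubgroup.closure (Set.range ρ)) :=
    AddCommGroup.finite_of_fg_isAddTorsion _ htors
  have h2 : (AddSubgroup.closure (Set.range ρ) : Set (End k M)).Finite := Set.toFinite _
  rw [← hset] at h2
  exact h2

/-- **The commutative case**: if no nonzero element of the span of a finite group `ρ(G)` in
characteristic `p` kills a nonzero vector, and the span acts quadratically and irreducibly, then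
the module has dimension at most `2` (little Wedderburn + cyclicity of the units of a finite
field). -/
theorem finrank_le_two_of_domain (p : ℕ) [hp : Fact p.Prime] [CharP k p]
    (hfin : (Set.range ρ).Finite) (hirr : Irred ρ)
    (hq : ActsQuadratically (spanAlg ρ) k M)
    (hdom : ∀ (r : spanAlg ρ) (m : M), m ≠ 0 → r • m = 0 → ∀ m' : M, r • m' = 0) :
    Module.Finite k M ∧ Module.finrank k M ≤ 2 := by
  classical
  have := hirr.1
  have hsimple := isSimpleModule_spanAlg hirr
  -- the finite ring `F`
  have hFfin : Finite ↥(Subring.closure (Set.range ρ)) := finite_subringClosure p hfin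
  have hFle : Subring.closure (Set.range ρ) ≤ (spanAlg ρ).toSubring :=
    Subring.closure_le.2 (by rintro _ ⟨g, rfl⟩; exact rho_mem_spanAlg ρ g)
  have hnzd : NoZeroDivisors ↥(Subring.closure (Set.range ρ)) := by
    refine ⟨fun {x y} hxy => ?_⟩
    by_contra hne
    rw [not_or] at hne
    obtain ⟨hx, hy⟩ := hne
    have hy' : (y : End k M) ≠ 0 := fun h => hy (Subtype.ext h)
    obtain ⟨m, hm⟩ : ∃ m, (y : End k M) m ≠ 0 := by
      by_contra hall
      push Not at hall
      exact hy' (LinearMap.ext hall)
    have hxy' : (x : End k M) ((y : End k M) m) = 0 := by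
      have := congrArg (fun z : ↥(Subring.closure (Set.range ρ)) => (z : End k M) m) hxy
      simpa using this
    have hxall := hdom ⟨(x : End k M), hFle x.2⟩ _ hm hxy'
    exact hx (Subtype.ext (LinearMap.ext hxall))
  have hnt : Nontrivial ↥(Subring.closure (Set.range ρ)) := by
    refine ⟨⟨0, 1, fun h => ?_⟩⟩
    have h1 : (0 : End k M) = 1 := congrArg Subtype.val h
    obtain ⟨m, hm⟩ := exists_ne (0 : M)
    exact hm (by simpa using (congrArg (fun φ : End k M => φ m) h1).symm)
  have hdomF : IsDomain ↥(Subring.closure (Set.range ρ)) := NoZeroDivisors.to_isDomain _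
  have hfield := Finite.isDomain_to_isField ↥(Subring.closure (Set.range ρ))
  let _ : Field ↥(Subring.closure (Set.range ρ)) := hfield.toField
  obtain ⟨θ, hθ⟩ := IsCyclic.exists_monoid_generator (α := (↥(Subring.closure (Set.range ρ)))ˣ)
  -- the generator as an endomorphism
  set t : End k M := ((θ : ↥(Subring.closure (Set.range ρ))) : End k M) with ht
  have htmem : t ∈ spanAlg ρ := hFle (θ : ↥(Subring.closure (Set.range ρ))).2
  obtain ⟨σ, ν, hσν⟩ := hq ⟨t, htmem⟩
  have htt : t * t = σ • t - ν • (1 : End k M) := LinearMap.ext fun m => hσν m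
  -- the plane spanned by `1` and `t`
  have hPt : ∀ x ∈ Submodule.span k {(1 : End k M), t}, x * t ∈ Submodule.span k {(1 : End k M), t} := by
    intro x hx
    induction hx using Submodule.span_induction with
    | mem y hy =>
      rcases hy with rfl | rfl
      · rw [one_mul]
        exact Submodule.subset_span (by simp)
      · rw [htt]
        exact Submodule.sub_mem _ (Submodule.smul_mem _ _ (Submodule.subset_span (by simp)))
          (Submodule.smul_mem _ _ (Submodule.subset_span (by simp)))
    | zero => rw [zero_mul]; exact Submodule.zero_mem _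
    | add y z _ _ hy hz => rw [add_mul]; exact Submodule.add_mem _ hy hz
    | smul c y _ hy => rw [smul_mul_assoc]; exact Submodule.smul_mem _ _ hy
  have hpow : ∀ j : ℕ, t ^ j ∈ Submodule.span k {(1 : End k M), t} := by
    intro j
    induction j with
    | zero => rw [pow_zero]; exact Submodule.subset_span (by simp)
    | succ j ih => rw [pow_succ]; exact hPt _ ih
  have hρ : ∀ g, ρ g ∈ Submodule.span k {(1 : End k M), t} := by
    intro g
    have hg : ρ g ∈ Subring.closure (Set.range ρ) := Subring.subset_closure ⟨g, rfl⟩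
    have hg' : ρ g⁻¹ ∈ Subring.closure (Set.range ρ) := Subring.subset_closure ⟨g⁻¹, rfl⟩
    let u : (↥(Subring.closure (Set.range ρ)))ˣ :=
      ⟨⟨ρ g, hg⟩, ⟨ρ g⁻¹, hg'⟩,
        Subtype.ext (by
          show ρ g * ρ g⁻¹ = 1
          rw [← map_mul, mul_inv_cancel, map_one]),
        Subtype.ext (by
          show ρ g⁻¹ * ρ g = 1
          rw [← map_mul, inv_mul_cancel, map_one])⟩
    obtain ⟨j, hj⟩ := hθ u
    have h1 : ((θ ^ j : (↥(Subring.closure (Set.range ρ)))ˣ) :
        ↥(Subring.closure (Set.range ρ))) = ⟨ρ g, hg⟩ := congrArg Units.val hj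
    have h2 : t ^ j = ρ g := by
      have := congrArg Subtype.val h1
      rw [Units.val_pow_eq_pow_val] at this
      simpa using this
    rw [← h2]
    exact hpow j
  have hle : Subalgebra.toSubmodule (spanAlg ρ) ≤ Submodule.span k {(1 : End k M), t} := by
    rw [toSubmodule_spanAlg, Submodule.span_le]
    rintro _ ⟨g, rfl⟩
    exact hρ g
  obtain ⟨m₀, hm₀⟩ := exists_ne (0 : M)
  have hsurj := IsSimpleModule.toSpanSingleton_surjective (spanAlg ρ) hm₀
  have htop : (⊤ : Submodule k M) ≤ Submodule.span k {m₀, t m₀} := by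
    intro m _
    obtain ⟨a, rfl⟩ := hsurj m
    show (a : End k M) m₀ ∈ _
    have ha := hle a.2
    rw [Submodule.mem_span_pair] at ha
    obtain ⟨α, β, hαβ⟩ := ha
    rw [← hαβ, Submodule.mem_span_pair]
    exact ⟨α, β, by simp⟩
  have e : (⊤ : Submodule k M) = Submodule.span k ((({m₀, t m₀} : Finset M)) : Set M) := by
    rw [Finset.coe_pair]
    exact le_antisymm htop le_top
  refine ⟨Module.finite_def.2 (e ▸ Submodule.fg_span (Finset.finite_toSet _)), ?_⟩
  calc Module.finrank k M = Module.finrank k ↥(⊤ : Submodule k M) := (finrank_top k M).symm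
    _ = Module.finrank k ↥(Submodule.span k ((({m₀, t m₀} : Finset M)) : Set M)) := by rw [e]
    _ ≤ ({m₀, t m₀} : Finset M).card := finrank_span_finset_le_card _
    _ ≤ 2 := Finset.card_le_two

end FiniteImage


section Charpoly

open Polynomial

variable {k : Type*} [Field k] {G : Type*} [Group G] {M : Type*} [AddCommGroup M] [Module k M]
  [FiniteDimensional k M] {ρ : Representation k G M} {χ : G →* kˣ} {s : G → k}

omit [FiniteDimensional k M] in
lemma rho_mul_rho_inv (g : G) : ρ g * ρ g⁻¹ = 1 := by
  rw [← map_mul, mul_inv_cancel, map_one]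

omit [FiniteDimensional k M] in
lemma rho_sq (h : OpIdentity ρ χ s) (g : G) :
    ρ g * ρ g = s g • ρ g - (χ g : k) • (1 : End k M) := by
  have h1 := congrArg (fun x => ρ g * x) (h g)
  simp only [mul_add, mul_smul_comm, rho_mul_rho_inv, mul_one] at h1
  rw [← h1]
  abel

/-- The characteristic polynomial of a scalar endomorphism. -/
lemma charpoly_smul_one (c : k) :
    (c • (1 : End k M)).charpoly = (X - C c) ^ Module.finrank k M := by
  have h1 := LinearMap.charpoly_sub_smul (0 : End k M) (-c)
  rw [zero_sub, neg_smul, neg_neg, LinearMap.charpoly_zero] at h1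
  rw [h1, pow_comp, X_comp, C_neg, sub_eq_add_neg]

/-- A non-scalar endomorphism of a plane killed by a monic quadratic polynomial has that
polynomial as characteristic polynomial. -/
lemma charpoly_eq_of_not_isScal (h2 : Module.finrank k M = 2) (a : End k M) (σ ν : k)
    (ha : a * a = σ • a - ν • (1 : End k M)) (hns : ¬ IsScal a) :
    a.charpoly = X ^ 2 - C σ * X + C ν := by
  have : Nontrivial M := Module.nontrivial_of_finrank_pos (R := k) (by rw [h2]; norm_num)
  set q : k[X] := X ^ 2 - C σ * X + C ν with hq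
  have hqm : q.Monic := by rw [hq]; monicity!
  have hqd : q.natDegree = 2 := by rw [hq]; compute_degree!
  have hcpm : a.charpoly.Monic := LinearMap.charpoly_monic a
  have hcpd : a.charpoly.natDegree = 2 := by rw [LinearMap.charpoly_natDegree, h2]
  by_contra hne
  have hc0 : a.charpoly - q ≠ 0 := sub_ne_zero.2 hne
  have hcd : (a.charpoly - q).degree < 2 := by
    have h3 := degree_sub_lt_left (p := a.charpoly) (q := q)
      (by rw [degree_eq_natDegree hcpm.ne_zero, degree_eq_natDegree hqm.ne_zero, hcpd, hqd])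
      hcpm.ne_zero (by rw [hcpm.leadingCoeff, hqm.leadingCoeff])
    rwa [degree_eq_natDegree hcpm.ne_zero, hcpd] at h3
  have hcn : (a.charpoly - q).natDegree ≤ 1 := by
    have h3 : (a.charpoly - q).natDegree < 2 :=
      (natDegree_lt_iff_degree_lt hc0).2 (by exact_mod_cast hcd)
    omega
  have hev : aeval a (a.charpoly - q) = 0 := by
    rw [map_sub, LinearMap.aeval_self_charpoly, zero_sub, neg_eq_zero, hq]
    simp only [map_add, map_sub, map_mul, map_pow, aeval_X, aeval_C]
    rw [pow_two, ha, Algebra.algebraMap_eq_smul_one, Algebra.algebraMap_eq_smul_one, smul_mul_assoc,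
      one_mul]
    abel
  obtain ⟨α, β, hc⟩ : ∃ α β : k, a.charpoly - q = C α * X + C β :=
    ⟨_, _, eq_X_add_C_of_natDegree_le_one hcn⟩
  rw [hc] at hev hc0
  simp only [map_add, map_mul, aeval_X, aeval_C, Algebra.algebraMap_eq_smul_one, smul_mul_assoc,
    one_mul] at hev
  by_cases hα : α = 0
  · rw [hα, zero_smul, zero_add] at hev
    obtain ⟨m, hm⟩ := exists_ne (0 : M)
    have h4 := congrArg (fun φ : End k M => φ m) hev
    simp only [LinearMap.smul_apply, Module.End.one_apply, LinearMap.zero_apply] at h4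
    have hβ := (smul_eq_zero.1 h4).resolve_right hm
    apply hc0
    rw [hα, hβ]
    simp
  · apply hns
    refine ⟨-β / α, ?_⟩
    have h5 : α • a = -(β • (1 : End k M)) := eq_neg_of_add_eq_zero_left hev
    have h6 := congrArg (fun x => α⁻¹ • x) h5
    simp only [smul_smul, inv_mul_cancel₀ hα, one_smul, smul_neg] at h6
    rw [h6, ← neg_smul]
    congr 1
    field_simp

omit [FiniteDimensional k M] in
lemma smul_one_injective [Nontrivial M] : Function.Injective fun c : k => c • (1 : End k M) := by
  intro c c' hcc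
  obtain ⟨m, hm⟩ := exists_ne (0 : M)
  have h1 := congrArg (fun φ : End k M => φ m) hcc
  simp only [LinearMap.smul_apply, Module.End.one_apply] at h1
  exact smul_left_injective k hm h1

omit [FiniteDimensional k M] in
/-- An irreducible representation on a plane does not consist of scalars. -/
lemma not_forall_isScal (hirr : Irred ρ) (h2 : Module.finrank k M = 2) :
    ¬ ∀ g, IsScal (ρ g) := by
  intro hall
  have := hirr.1
  obtain ⟨m₀, hm₀⟩ := exists_ne (0 : M)
  rcases hirr.2 (Submodule.span k {m₀}) (fun g x hx => by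
    obtain ⟨t, ht⟩ := hall g
    rw [ht]
    exact Submodule.smul_mem _ _ hx) with h3 | h3
  · exact hm₀ ((Submodule.span_singleton_eq_bot).1 h3)
  · have h4 : Module.finrank k M ≤ 1 := by
      rw [← finrank_top k M, ← h3]
      exact (finrank_span_le_card ({m₀} : Set M)).trans (by simp)
    omega

/-- **The characteristic polynomials of an irreducible plane representation satisfying the
operator identity** `ρ(g) + χ(g) ρ(g)⁻¹ = s(g)`. -/
theorem charpoly_rho (hirr : Irred ρ) (h : OpIdentity ρ χ s) (h2 : Module.finrank k M = 2)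
    (g : G) : (ρ g).charpoly = X ^ 2 - C (s g) * X + C (χ g : k) := by
  have := hirr.1
  by_cases hns : IsScal (ρ g)
  swap
  · exact charpoly_eq_of_not_isScal h2 (ρ g) (s g) (χ g) (rho_sq h g) hns
  obtain ⟨c, hc⟩ := hns
  have hc0 : c ≠ 0 := by
    rintro rfl
    have h1 := rho_mul_rho_inv (ρ := ρ) g
    rw [hc, zero_smul, zero_mul] at h1
    exact zero_ne_one h1
  have hinv : ρ g⁻¹ = c⁻¹ • (1 : End k M) := by
    have h1 := rho_mul_rho_inv (ρ := ρ) g
    rw [hc, smul_mul_assoc, one_mul] at h1
    have h3 := congrArg (fun x => c⁻¹ • x) h1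
    simpa only [smul_smul, inv_mul_cancel₀ hc0, one_smul] using h3
  have hχ : (χ g : k) = c * c := by
    by_contra hne
    apply not_forall_isScal hirr h2
    have key : ∀ h' : G, IsScal (ρ h'⁻¹) := by
      intro h'
      have e1 := h (g * h')
      have e2 := h h'
      rw [map_mul ρ g h', mul_inv_rev, map_mul ρ h'⁻¹ g⁻¹, hc, hinv, map_mul χ g h',
        Units.val_mul] at e1
      simp only [smul_mul_assoc, one_mul, mul_smul_comm, mul_one, smul_smul] at e1
      have e3 := congrArg (fun x => c • x) e2
      simp only [smul_add, smul_smul] at e3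
      have e4 : (((χ g : k) * (χ h' : k) * c⁻¹) - c * (χ h' : k)) • ρ h'⁻¹ =
          (s (g * h') - c * s h') • (1 : End k M) := by
        rw [sub_smul, sub_smul, ← e1, ← e3]
        abel
      have hδ : ((χ g : k) * (χ h' : k) * c⁻¹) - c * (χ h' : k) ≠ 0 := by
        have : ((χ g : k) * (χ h' : k) * c⁻¹) - c * (χ h' : k) =
            ((χ g : k) - c * c) * (χ h' : k) * c⁻¹ := by
          field_simp
        rw [this]
        exact mul_ne_zero (mul_ne_zero (sub_ne_zero.2 hne) (χ h').ne_zero) (inv_ne_zero hc0)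
      refine ⟨(((χ g : k) * (χ h' : k) * c⁻¹) - c * (χ h' : k))⁻¹ * (s (g * h') - c * s h'), ?_⟩
      have e5 := congrArg (fun x => (((χ g : k) * (χ h' : k) * c⁻¹) - c * (χ h' : k))⁻¹ • x) e4
      simpa only [smul_smul, inv_mul_cancel₀ hδ, one_smul] using e5
    intro h'
    have := key h'⁻¹
    rwa [inv_inv] at this
  have hs : s g = c + c := by
    have e1 := h g
    rw [hc, hinv, smul_smul, ← add_smul, hχ, mul_assoc, mul_inv_cancel₀ hc0, mul_one] at e1
    exact (smul_one_injective e1).symm
  rw [hc, charpoly_smul_one, h2, hs, hχ]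
  simp only [map_add, map_mul]
  ring

end Charpoly


section DimOne

open Polynomial

variable {k : Type*} [Field k] {G : Type*} [Group G] {M : Type*} [AddCommGroup M] [Module k M]
  {ρ : Representation k G M} {χ : G →* kˣ} {s : G → k}

/-- On a line every endomorphism is a scalar. -/
lemma isScal_of_finrank_eq_one (h1 : Module.finrank k M = 1) (a : End k M) : IsScal a := by
  obtain ⟨v, hv, hspan⟩ := finrank_eq_one_iff'.1 h1
  obtain ⟨c, hc⟩ := hspan (a v)
  refine ⟨c, LinearMap.ext fun w => ?_⟩
  obtain ⟨t, rfl⟩ := hspan w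
  rw [map_smul, ← hc, LinearMap.smul_apply, Module.End.one_apply, smul_comm]

/-- The diagonal representation `ψ ⊕ χ ψ⁻¹` on `k × k`. -/
noncomputable def diagRep (ψ : G → k) (hψ1 : ψ 1 = 1) (hψm : ∀ g h, ψ (g * h) = ψ g * ψ h)
    (χ : G →* kˣ) : Representation k G (k × k) where
  toFun g := LinearMap.prodMap (ψ g • (LinearMap.id : k →ₗ[k] k))
    (((χ g : k) * (ψ g)⁻¹) • (LinearMap.id : k →ₗ[k] k))
  map_one' := by
    ext <;> simp [hψ1]
  map_mul' g h := by
    ext
    · simp [hψm]
    · simp
    · simp
    · simp only [map_mul, Units.val_mul, hψm, mul_inv, LinearMap.coe_comp, LinearMap.coe_inr,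
        Function.comp_apply, LinearMap.prodMap_apply, map_zero, LinearMap.smul_apply,
        LinearMap.id_coe, id_eq, smul_eq_mul, mul_one, Module.End.mul_apply]
      ring

lemma diagRep_apply (ψ : G → k) (hψ1 : ψ 1 = 1) (hψm : ∀ g h, ψ (g * h) = ψ g * ψ h)
    (χ : G →* kˣ) (g : G) :
    diagRep ψ hψ1 hψm χ g = LinearMap.prodMap (ψ g • (LinearMap.id : k →ₗ[k] k))
      (((χ g : k) * (ψ g)⁻¹) • (LinearMap.id : k →ₗ[k] k)) := rfl

lemma charpoly_diagRep (ψ : G → k) (hψ1 : ψ 1 = 1) (hψm : ∀ g h, ψ (g * h) = ψ g * ψ h)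
    (χ : G →* kˣ) (g : G) (hg : ψ g ≠ 0) :
    (diagRep ψ hψ1 hψm χ g).charpoly =
      X ^ 2 - C (ψ g + (χ g : k) * (ψ g)⁻¹) * X + C (χ g : k) := by
  have e : ∀ c : k, (c • (LinearMap.id : k →ₗ[k] k)).charpoly = X - C c := by
    intro c
    have := charpoly_smul_one (k := k) (M := k) c
    rw [Module.finrank_self, pow_one] at this
    exact this
  rw [diagRep_apply, LinearMap.charpoly_prodMap, e, e]
  have h1 : (χ g : k) = ψ g * ((χ g : k) * (ψ g)⁻¹) := by field_simp
  generalize (χ g : k) * (ψ g)⁻¹ = b at h1 ⊢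
  rw [h1]
  simp only [map_add, map_mul]
  ring

end DimOne


section Main

open Polynomial

variable {k : Type} [Field k] {G : Type*} [Group G]

/-- **The irreducible case.** -/
theorem exists_rep_of_irred {M : Type} [AddCommGroup M] [Module k M]
    {ρ : Representation k G M} {χ : G →* kˣ} {s : G → k} (p : ℕ) [Fact p.Prime] [CharP k p]
    (hfin : (Set.range ρ).Finite) (hirr : Irred ρ) (h : OpIdentity ρ χ s) :
    ∃ (V : Type) (_ : AddCommGroup V) (_ : Module k V) (_ : Module.Finite k V)
      (ρ' : Representation k G V), Module.finrank k V = 2 ∧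
      (∀ g, (ρ' g).charpoly = X ^ 2 - C (s g) * X + C (χ g : k)) ∧
      ∀ g, ρ g = 1 → χ g = 1 → ρ' g = 1 := by
  have hnt := hirr.1
  have hq := actsQuadratically_spanAlg h
  have hsimple := isSimpleModule_spanAlg hirr
  obtain ⟨hfd, hle⟩ : Module.Finite k M ∧ Module.finrank k M ≤ 2 := by
    rcases finrank_eq_two_or_domain (R := spanAlg ρ) (k := k) (M := M) hq with h2 | hdom
    · exact ⟨Module.finite_of_finrank_pos (by rw [h2]; norm_num), h2.le⟩
    · exact finrank_le_two_of_domain p hfin hirr hq hdom
  have hpos : 0 < Module.finrank k M := Module.finrank_pos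
  rcases (by omega : Module.finrank k M = 2 ∨ Module.finrank k M = 1) with h2 | h1
  · exact ⟨M, inferInstance, inferInstance, hfd, ρ, h2, fun g => charpoly_rho hirr h h2 g,
      fun g hg _ => hg⟩
  · choose ψ hψ using fun g => isScal_of_finrank_eq_one h1 (ρ g)
    have hinj := smul_one_injective (k := k) (M := M)
    have hψ1 : ψ 1 = 1 := by
      apply hinj
      show ψ 1 • (1 : End k M) = (1 : k) • (1 : End k M)
      rw [← hψ, map_one, one_smul]
    have hψm : ∀ g g', ψ (g * g') = ψ g * ψ g' := by
      intro g g'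
      apply hinj
      show ψ (g * g') • (1 : End k M) = (ψ g * ψ g') • (1 : End k M)
      rw [← hψ, map_mul, hψ g, hψ g', smul_mul_smul_comm, mul_one]
    have hψ0 : ∀ g, ψ g ≠ 0 := by
      intro g hg
      have h3 := hψm g g⁻¹
      rw [mul_inv_cancel, hψ1, hg, zero_mul] at h3
      exact one_ne_zero h3
    have hs : ∀ g, s g = ψ g + (χ g : k) * (ψ g)⁻¹ := by
      intro g
      have e1 := h g
      have e2 : ψ g⁻¹ = (ψ g)⁻¹ := by
        have h3 := hψm g g⁻¹
        rw [mul_inv_cancel, hψ1] at h3
        exact eq_inv_of_mul_eq_one_right h3.symm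
      rw [hψ g, hψ g⁻¹, smul_smul, ← add_smul, e2] at e1
      exact (hinj e1).symm
    refine ⟨k × k, inferInstance, inferInstance, inferInstance, diagRep ψ hψ1 hψm χ, ?_,
      fun g => ?_, fun g hg hχg => ?_⟩
    · rw [Module.finrank_prod, Module.finrank_self]
    · rw [charpoly_diagRep ψ hψ1 hψm χ g (hψ0 g), hs g]
    · have hψg : ψ g = 1 := by
        apply hinj
        show ψ g • (1 : End k M) = (1 : k) • (1 : End k M)
        rw [← hψ, hg, one_smul]
      rw [diagRep_apply, hψg, hχg]
      ext <;> simp

/-- The restriction of a representation to a stable subspace. -/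
noncomputable def subRep {W : Type} [AddCommGroup W] [Module k W] (ρ : Representation k G W)
    (U : Submodule k W) (hU : ∀ g, ∀ x ∈ U, ρ g x ∈ U) : Representation k G ↥U where
  toFun g := (ρ g).restrict (hU g)
  map_one' := by ext; simp
  map_mul' g h := by ext; simp

lemma subRep_apply {W : Type} [AddCommGroup W] [Module k W] (ρ : Representation k G W)
    (U : Submodule k W) (hU : ∀ g, ∀ x ∈ U, ρ g x ∈ U) (g : G) (x : ↥U) :
    ((subRep ρ U hU g x : ↥U) : W) = ρ g (x : W) := rfl

/-- **A residual representation from the operator identity.** Let `k` be a field of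
characteristic `p`, `ρ` a representation of a group `G` with finite image on a nonzero
finite-dimensional `k`-vector space `W`, and assume `ρ(g) + χ(g) ρ(g)⁻¹ = s(g)` is a scalar for
every `g` (`χ` a character). Then there is a two-dimensional representation `ρ'` of `G` over `k`
with `charpoly ρ'(g) = X² - s(g) X + χ(g)` for all `g`, trivial on the common kernel of `ρ` and
`χ`. -/
theorem exists_residual_rep {W : Type} [AddCommGroup W] [Module k W] [FiniteDimensional k W]
    [Nontrivial W] (ρ : Representation k G W) (χ : G →* kˣ) (s : G → k) (p : ℕ) [Fact p.Prime]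
    [CharP k p] (hfin : (Set.range ρ).Finite) (h : OpIdentity ρ χ s) :
    ∃ (V : Type) (_ : AddCommGroup V) (_ : Module k V) (_ : Module.Finite k V)
      (ρ' : Representation k G V), Module.finrank k V = 2 ∧
      (∀ g, (ρ' g).charpoly = X ^ 2 - C (s g) * X + C (χ g : k)) ∧
      ∀ g, ρ g = 1 → χ g = 1 → ρ' g = 1 := by
  classical
  -- a nonzero stable subspace of minimal dimension
  have hex : ∃ n : ℕ, ∃ U : Submodule k W, U ≠ ⊥ ∧ (∀ g, ∀ x ∈ U, ρ g x ∈ U) ∧
      Module.finrank k ↥U = n :=
    ⟨_, ⊤, top_ne_bot, fun _ _ _ => Submodule.mem_top, rfl⟩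
  obtain ⟨U, hU0, hU, hUn⟩ := Nat.find_spec hex
  have hmin : ∀ U' : Submodule k W, U' ≠ ⊥ → (∀ g, ∀ x ∈ U', ρ g x ∈ U') →
      Module.finrank k ↥U ≤ Module.finrank k ↥U' := by
    intro U' h0 hst
    rw [hUn]
    exact Nat.find_min' hex ⟨U', h0, hst, rfl⟩
  have hirr : Irred (subRep ρ U hU) := by
    refine ⟨Submodule.nontrivial_iff_ne_bot.2 hU0, fun N hN => ?_⟩
    by_cases hN0 : N = ⊥
    · exact Or.inl hN0
    right
    have h1 : N.map U.subtype ≠ ⊥ := by
      intro h0
      apply hN0
      apply Submodule.map_injective_of_injective U.subtype_injective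
      rw [h0, Submodule.map_bot]
    have h2 : ∀ g, ∀ x ∈ N.map U.subtype, ρ g x ∈ N.map U.subtype := by
      rintro g _ ⟨y, hy, rfl⟩
      exact ⟨subRep ρ U hU g y, hN g y hy, rfl⟩
    have h3 : N.map U.subtype ≤ U := Submodule.map_subtype_le U N
    have h4 : N.map U.subtype = U :=
      Submodule.eq_of_le_of_finrank_le h3 (hmin _ h1 h2)
    rw [eq_top_iff]
    rintro ⟨x, hx⟩ _
    have hx' : x ∈ N.map U.subtype := by rw [h4]; exact hx
    obtain ⟨y, hy, hyx⟩ := hx'
    have : y = ⟨x, hx⟩ := Subtype.ext hyx
    rwa [← this]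
  have hfinU : (Set.range (subRep ρ U hU)).Finite := by
    have : Finite (Set.range ρ) := hfin
    let e : Set.range ρ → End k ↥U := fun a => subRep ρ U hU a.2.choose
    refine (Set.finite_range e).subset ?_
    rintro _ ⟨g, rfl⟩
    refine ⟨⟨ρ g, g, rfl⟩, ?_⟩
    have h1 : ρ (Exists.choose (⟨g, rfl⟩ : ∃ g', ρ g' = ρ g)) = ρ g :=
      Exists.choose_spec (⟨g, rfl⟩ : ∃ g', ρ g' = ρ g)
    ext x
    show ρ _ (x : W) = ρ g (x : W)
    rw [h1]
  have hU_id : OpIdentity (subRep ρ U hU) χ s := by
    intro g
    ext x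
    have h1 := congrArg (fun φ : End k W => φ (x : W)) (h g)
    exact h1
  obtain ⟨V, i1, i2, i3, ρ', hV, hcp, htriv⟩ := exists_rep_of_irred p hfinU hirr hU_id
  refine ⟨V, i1, i2, i3, ρ', hV, hcp, fun g hg hχ => htriv g ?_ hχ⟩
  ext x
  show ρ g (x : W) = x
  rw [hg]
  rfl

end Main

end Fermat.Agent.N4F.G.ResidualRep
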