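/-
N4-FULL / block G (helper4): the output of `G/ResidualRep.lean` in the Prelude's typing.

From a Galois representation `ρ : Γ →* End_k W` (`Γ = Gal(ℚ̄/ℚ)`, `k` ANY field of characteristic
`p`, `W ≠ 0` finite-dimensional) and a character `χ : Γ →* kˣ`, both factoring through a finite
level, with `ρ(g) + χ(g) ρ(g)⁻¹ = s(g)` for all `g`, we get a `ResidualGaloisRep k` whose
characteristic polynomials are `X² - s(g) X + χ(g)` and which is trivial on `ker ρ ∩ ker χ`
(so: unramified wherever `ρ` and `χ` are).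
-/
import Fermat.Prelude.Def_GaloisRep_Residual
import Fermat.Agent.N4F.G.ResidualRep

set_option autoImplicit false

open Polynomial

namespace Fermat.Agent.N4F.G.ResidualGalois

open Fermat.Agent.N4F.G.ResidualRep

local notation "Qbar" => AlgebraicClosure ℚ
local notation "Γ" => (AlgebraicClosure ℚ ≃ₐ[ℚ] AlgebraicClosure ℚ)

/-- A monoid homomorphism from the Galois group which factors through a finite level has finite
image. -/
theorem finite_range_of_factors {M : Type} [Monoid M] (ρ : Γ →* M)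
    (hρ : GaloisFactorsThroughFiniteLevel ρ) : (Set.range ρ).Finite := by
  obtain ⟨L, hL, hker⟩ := hρ
  have hfin : Finite (↥L →ₐ[ℚ] Qbar) := inferInstance
  let r : Γ → (↥L →ₐ[ℚ] Qbar) := fun σ => (σ : Qbar →ₐ[ℚ] Qbar).comp L.val
  have hfac : ∀ σ τ : Γ, r σ = r τ → ρ σ = ρ τ := by
    intro σ τ hστ
    have h1 : ρ (σ⁻¹ * τ) = 1 := by
      apply hker
      intro x hx
      have h2 : σ x = τ x := congrArg (fun f : ↥L →ₐ[ℚ] Qbar => f ⟨x, hx⟩) hστ
      show σ⁻¹ (τ x) = x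
      rw [← h2]
      exact σ.symm_apply_apply x
    have h3 : ρ τ = ρ σ * ρ (σ⁻¹ * τ) := by rw [← map_mul, mul_inv_cancel_left]
    rw [h3, h1, mul_one]
  classical
  let e : Set.range r → M := fun a => ρ a.2.choose
  refine (Set.finite_range e).subset ?_
  rintro _ ⟨σ, rfl⟩
  refine ⟨⟨r σ, σ, rfl⟩, ?_⟩
  exact hfac _ _ (Exists.choose_spec (⟨σ, rfl⟩ : ∃ σ', r σ' = r σ))

/-- Two homomorphisms which factor through finite levels factor through a common finite level. -/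
theorem exists_common_level {M M' : Type} [Monoid M] [Monoid M'] (ρ : Γ →* M) (χ : Γ →* M')
    (hρ : GaloisFactorsThroughFiniteLevel ρ) (hχ : GaloisFactorsThroughFiniteLevel χ) :
    ∃ L : IntermediateField ℚ Qbar, FiniteDimensional ℚ L ∧
      ∀ σ : Γ, (∀ x ∈ L, σ x = x) → ρ σ = 1 ∧ χ σ = 1 := by
  obtain ⟨L₁, h₁, hk₁⟩ := hρ
  obtain ⟨L₂, h₂, hk₂⟩ := hχ
  exact ⟨L₁ ⊔ L₂, IntermediateField.finiteDimensional_sup L₁ L₂, fun σ hσ =>
    ⟨hk₁ σ fun x hx => hσ x ((le_sup_left : L₁ ≤ L₁ ⊔ L₂) hx),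
      hk₂ σ fun x hx => hσ x ((le_sup_right : L₂ ≤ L₁ ⊔ L₂) hx)⟩⟩

/-- **A residual Galois representation from the operator identity**, over an arbitrary field of
characteristic `p`. -/
theorem exists_residualGaloisRep {k : Type} [Field k] (p : ℕ) [Fact p.Prime] [CharP k p]
    {W : Type} [AddCommGroup W] [Module k W] [FiniteDimensional k W] [Nontrivial W]
    (ρ : Γ →* Module.End k W) (hρ : GaloisFactorsThroughFiniteLevel ρ)
    (χ : Γ →* kˣ) (hχ : GaloisFactorsThroughFiniteLevel χ) (s : Γ → k)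
    (h : ∀ g : Γ, ρ g + ((χ g : kˣ) : k) • ρ g⁻¹ = s g • (1 : Module.End k W)) :
    ∃ r : ResidualGaloisRep k,
      (∀ g : Γ, LinearMap.charpoly (r.ρ g) = X ^ 2 - C (s g) * X + C ((χ g : kˣ) : k)) ∧
      ∀ g : Γ, ρ g = 1 → χ g = 1 → r.ρ g = 1 := by
  obtain ⟨V, i1, i2, i3, ρ', hV, hcp, htriv⟩ :=
    exists_residual_rep (G := Γ) (ρ : Representation k Γ W) χ s p
      (finite_range_of_factors ρ hρ) h
  obtain ⟨L, hL, hker⟩ := exists_common_level ρ χ hρ hχ
  refine ⟨{ V := V, finrank_eq := hV, ρ := ρ',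
            factorsThroughFiniteLevel := ⟨L, hL, fun σ hσ =>
              htriv σ (hker σ hσ).1 (hker σ hσ).2⟩ }, fun g => ?_, fun g hg hχg => htriv g hg hχg⟩
  exact hcp g

/-- The same with the unramifiedness criterion spelled out. -/
theorem exists_residualGaloisRep_unramified {k : Type} [Field k] (p : ℕ) [Fact p.Prime]
    [CharP k p] {W : Type} [AddCommGroup W] [Module k W] [FiniteDimensional k W] [Nontrivial W]
    (ρ : Γ →* Module.End k W) (hρ : GaloisFactorsThroughFiniteLevel ρ)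
    (χ : Γ →* kˣ) (hχ : GaloisFactorsThroughFiniteLevel χ) (s : Γ → k)
    (h : ∀ g : Γ, ρ g + ((χ g : kˣ) : k) • ρ g⁻¹ = s g • (1 : Module.End k W)) :
    ∃ r : ResidualGaloisRep k,
      (∀ g : Γ, LinearMap.charpoly (r.ρ g) = X ^ 2 - C (s g) * X + C ((χ g : kˣ) : k)) ∧
      ∀ q : ℕ, (∀ A : ValuationSubring Qbar, A.LiesOverPrime q →
        ∀ σ ∈ A.inertiaSubgroupIn ℚ, ρ σ = 1 ∧ χ σ = 1) → r.IsUnramifiedAt q := by
  obtain ⟨r, hcp, htriv⟩ := exists_residualGaloisRep p ρ hρ χ hχ s h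
  exact ⟨r, hcp, fun q hq A hA σ hσ => htriv σ (hq A hA σ hσ).1 (hq A hA σ hσ).2⟩

end Fermat.Agent.N4F.G.ResidualGalois
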