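import Mathlib

/-!
# N4-FULL block G: Burnside's theorem on irreducible matrix algebras

`k` algebraically closed, `U` a finite-dimensional nonzero `k`-vector space.

* `Burnside.eq_top_of_irreducible` : a subalgebra `A` of `End_k U` with no invariant subspace other
  than `⊥`, `⊤` is all of `End_k U` (Schur + Mathlib's Jacobson density theorem).
* `Burnside.span_range_eq_top` : for a representation `ρ : G →* End_k U` of a monoid with no invariant
  subspace other than `⊥`, `⊤`, the `ρ g` span `End_k U`.
-/

set_option autoImplicit false

open Module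

namespace Fermat.Agent.N4F.G.Burnside

variable {k : Type*} [Field k] [IsAlgClosed k] {U : Type*} [AddCommGroup U] [Module k U]
  [FiniteDimensional k U] [Nontrivial U]

/-- **Burnside's theorem.** -/
theorem eq_top_of_irreducible (A : Subalgebra k (Module.End k U))
    (hirr : ∀ W : Submodule k U, (∀ a ∈ A, ∀ x ∈ W, a x ∈ W) → W = ⊥ ∨ W = ⊤) : A = ⊤ := by
  -- `U` is a simple `A`-module
  have hsmul : ∀ (a : A) (x : U), a • x = (a : Module.End k U) x := fun a x => rfl
  have : IsScalarTower k A U := ⟨fun c a x => by
    rw [hsmul, hsmul]
    rfl⟩
  have : IsSimpleModule A U := by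
    rw [isSimpleModule_iff]
    refine ⟨fun W => ?_⟩
    -- the underlying `k`-subspace
    let W' : Submodule k U :=
      { carrier := W
        add_mem' := W.add_mem
        zero_mem' := W.zero_mem
        smul_mem' := fun c x hx => by
          have h1 : (algebraMap k A c) • x ∈ W := W.smul_mem _ hx
          rw [hsmul] at h1
          simpa using h1 }
    rcases hirr W' (fun a ha x hx => W.smul_mem ⟨a, ha⟩ hx) with h | h
    · left
      ext x
      have h1 : x ∈ W ↔ x ∈ W' := Iff.rfl
      rw [h1, h]
      simp
    · right
      ext x
      have h1 : x ∈ W ↔ x ∈ W' := Iff.rfl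
      rw [h1, h]
      simp
  -- Schur
  have hschur := IsSimpleModule.algebraMap_end_bijective_of_isAlgClosed (A := A) (V := U) k
  have : Module.Finite (Module.End A U) U :=
    Module.Finite.of_restrictScalars_finite k (Module.End A U) U
  rw [eq_top_iff]
  intro a _
  -- `a` commutes with `End_A U = k`
  let f : Module.End (Module.End A U) U :=
    { toFun := a
      map_add' := a.map_add
      map_smul' := fun φ x => by
        obtain ⟨c, rfl⟩ := hschur.2 φ
        show a ((algebraMap k (Module.End A U) c) x) = (algebraMap k (Module.End A U) c) (a x)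
        rw [Module.algebraMap_end_apply, Module.algebraMap_end_apply, map_smul] }
  obtain ⟨r, hr⟩ := Module.Finite.toModuleEnd_moduleEnd_surjective (R := A) (M := U) f
  have : (r : Module.End k U) = a := by
    ext x
    have := congrArg (fun g : Module.End (Module.End A U) U => g x) hr
    exact this
  rw [← this]
  exact r.2

/-- For a representation of a monoid on `U` with no invariant subspace other than `⊥`, `⊤`, the
operators `ρ g` span `End_k U`. -/
theorem span_range_eq_top {G : Type*} [Monoid G] (ρ : Representation k G U)
    (hirr : ∀ W : Submodule k U, (∀ g, ∀ x ∈ W, ρ g x ∈ W) → W = ⊥ ∨ W = ⊤) :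
    Submodule.span k (Set.range ρ) = ⊤ := by
  have hA : Algebra.adjoin k (Set.range ρ) = ⊤ := by
    apply eq_top_of_irreducible
    intro W hW
    exact hirr W (fun g x hx => hW (ρ g) (Algebra.subset_adjoin ⟨g, rfl⟩) x hx)
  have h1 := Algebra.adjoin_eq_span k (Set.range ρ)
  have h2 : (Submonoid.closure (Set.range ρ) : Set (Module.End k U)) = Set.range ρ := by
    have : Set.range ρ = ((MonoidHom.mrange ρ : Submonoid (Module.End k U)) : Set _) := by
      ext x; simp
    rw [this, Submonoid.closure_eq]
  rw [h2, hA] at h1
  rw [← h1]
  rfl

end Fermat.Agent.N4F.G.Burnside
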