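import Mathlib
import Fermat.Agent.N4F.G.Burnside

/-!
# N4-FULL block G: the involution trick (algebraically closed field, arbitrary group)

`k` a field, `G` a group, `ρ : Representation k G U` finite-dimensional, `χ : G →* kˣ` a character and
`s : G → k` a function such that

  `ρ g + χ g • ρ g⁻¹ = s g • 1`   for all `g`   (the Eichler–Shimura shape).

If `k` is algebraically closed and `ρ` is irreducible then `dim U ≤ 2`; if `dim U = 2` then
`s = tr ρ`, `χ = det ρ`, so `charpoly (ρ g) = X² - s g X + χ g`; if `dim U = 1` then `ρ = ψ` is a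
character and `s = ψ + χ ψ⁻¹`.  In all cases (even for reducible `ρ`) there is a homomorphism
`ρ' : G →* M₂(k)` with `charpoly (ρ' g) = X² - s g X + χ g` and `ρ' g = 1` whenever `ρ g = 1` and
`χ g = 1`.

The proof avoids the group algebra: we work with the span `graphT` of the pairs
`(ρ g, χ g • ρ g⁻¹)` in `End U × End U`.

Main results:
* `anticomm_mem` : if the `ρ g` span `End U` then `a * b + b * a ∈ span {1, a, b}` for all `a b`.
* `finrank_le_two_of_anticomm`, `finrank_le_two`.
* `trace_det_of_finrank_two`, `charpoly_of_finrank_eq_two`.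
* `exists_char_of_finrank_one`.
* `exists_matrix_rep` (irreducible), `exists_matrix_rep_of_finiteDimensional` (general).
-/

set_option autoImplicit false

open Module Polynomial

namespace Fermat.Agent.N4F.G.InvolutionTrick

/-! ### The span of the pairs `(ρ g, χ g • ρ g⁻¹)` -/

section Graph

variable {k : Type*} [Field k] {G : Type*} [Group G] {U : Type*} [AddCommGroup U] [Module k U]

/-- The span of the pairs `(ρ g, χ g • ρ g⁻¹)` inside `End U × End U`. -/
def graphT (ρ : Representation k G U) (χ : G →* kˣ) :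
    Submodule k (Module.End k U × Module.End k U) :=
  Submodule.span k (Set.range fun g : G => (ρ g, ((χ g : kˣ) : k) • ρ g⁻¹))

variable {ρ : Representation k G U} {χ : G →* kˣ} {s : G → k}

theorem graphT_add_eq_smul
    (h : ∀ g, ρ g + ((χ g : kˣ) : k) • ρ g⁻¹ = s g • (1 : Module.End k U))
    {t : Module.End k U × Module.End k U} (ht : t ∈ graphT ρ χ) :
    ∃ σ : k, t.1 + t.2 = σ • (1 : Module.End k U) := by
  unfold graphT at ht
  induction ht using Submodule.span_induction with
  | mem x hx =>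
    obtain ⟨g, rfl⟩ := hx
    exact ⟨s g, h g⟩
  | zero => exact ⟨0, by simp⟩
  | add x y _ _ ihx ihy =>
    obtain ⟨a, ha⟩ := ihx
    obtain ⟨b, hb⟩ := ihy
    refine ⟨a + b, ?_⟩
    rw [add_smul, ← ha, ← hb]
    simp only [Prod.fst_add, Prod.snd_add]
    abel
  | smul c x _ ih =>
    obtain ⟨a, ha⟩ := ih
    refine ⟨c * a, ?_⟩
    rw [mul_smul, ← ha]
    simp only [Prod.smul_fst, Prod.smul_snd, smul_add]

/-- The bilinear map `(t, u) ↦ (t.1 * u.1, u.2 * t.2)`. -/
def mulPair : (Module.End k U × Module.End k U) →ₗ[k]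
    (Module.End k U × Module.End k U) →ₗ[k] (Module.End k U × Module.End k U) :=
  LinearMap.mk₂ k (fun t u => (t.1 * u.1, u.2 * t.2))
    (fun t t' u => by simp [add_mul, mul_add])
    (fun c t u => by simp)
    (fun t u u' => by simp [add_mul, mul_add])
    (fun c t u => by simp)

@[simp] theorem mulPair_apply (t u : Module.End k U × Module.End k U) :
    mulPair t u = (t.1 * u.1, u.2 * t.2) := rfl

theorem graphT_mul {t u : Module.End k U × Module.End k U} (ht : t ∈ graphT ρ χ)
    (hu : u ∈ graphT ρ χ) : (t.1 * u.1, u.2 * t.2) ∈ graphT ρ χ := by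
  have hle : Submodule.map₂ mulPair (graphT ρ χ) (graphT ρ χ) ≤ graphT ρ χ := by
    unfold graphT
    rw [Submodule.map₂_span_span, Submodule.span_le]
    rintro _ ⟨_, ⟨g, rfl⟩, _, ⟨h, rfl⟩, rfl⟩
    apply Submodule.subset_span
    refine ⟨g * h, ?_⟩
    simp only [mulPair_apply, map_mul, mul_inv_rev, Units.val_mul]
    rw [smul_mul_smul_comm, mul_comm]
  exact hle (Submodule.apply_mem_map₂ mulPair ht hu)

theorem graphT_fst_surjective (hspan : Submodule.span k (Set.range ρ) = ⊤)
    (a : Module.End k U) : ∃ t ∈ graphT ρ χ, t.1 = a := by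
  have h1 : Submodule.map (LinearMap.fst k (Module.End k U) (Module.End k U)) (graphT ρ χ)
      = ⊤ := by
    unfold graphT
    rw [Submodule.map_span, ← hspan]
    congr 1
    ext x
    simp
  have h2 : a ∈ Submodule.map (LinearMap.fst k (Module.End k U) (Module.End k U))
      (graphT ρ χ) := by
    rw [h1]; trivial
  obtain ⟨t, ht, rfl⟩ := h2
  exact ⟨t, ht, rfl⟩

/-- **Key identity**: if the `ρ g` span `End U`, every anticommutator `a * b + b * a` is a linear
combination of `1`, `a`, `b`. -/
theorem anticomm_mem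
    (h : ∀ g, ρ g + ((χ g : kˣ) : k) • ρ g⁻¹ = s g • (1 : Module.End k U))
    (hspan : Submodule.span k (Set.range ρ) = ⊤) (a b : Module.End k U) :
    ∃ α β γ : k, a * b + b * a = γ • (1 : Module.End k U) + β • a + α • b := by
  obtain ⟨t, ht, rfl⟩ := graphT_fst_surjective (χ := χ) hspan a
  obtain ⟨u, hu, rfl⟩ := graphT_fst_surjective (χ := χ) hspan b
  obtain ⟨σa, ha⟩ := graphT_add_eq_smul h ht
  obtain ⟨σb, hb⟩ := graphT_add_eq_smul h hu
  obtain ⟨γ, hγ⟩ := graphT_add_eq_smul h (graphT_mul ht hu)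
  have ea : t.2 = σa • (1 : Module.End k U) - t.1 := eq_sub_of_add_eq' ha
  have eb : u.2 = σb • (1 : Module.End k U) - u.1 := eq_sub_of_add_eq' hb
  refine ⟨σa, σb, γ - σb * σa, ?_⟩
  simp only [ea, eb] at hγ
  simp only [sub_mul, mul_sub, smul_mul_assoc, mul_smul_comm, one_mul, mul_one] at hγ
  rw [sub_smul, ← hγ]
  module

/-- The quadratic relation `ρ g ^ 2 = s g • ρ g - χ g`. -/
theorem rho_mul_self (h : ∀ g, ρ g + ((χ g : kˣ) : k) • ρ g⁻¹ = s g • (1 : Module.End k U))
    (g : G) : ρ g * ρ g = s g • ρ g - ((χ g : kˣ) : k) • (1 : Module.End k U) := by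
  have h1 : ρ g * ρ g⁻¹ = 1 := by rw [← map_mul, mul_inv_cancel, map_one]
  have h2 := congrArg (fun f => ρ g * f) (h g)
  simp only [mul_add, mul_smul_comm, h1, mul_one] at h2
  rw [← h2]
  abel

theorem eq_zero_of_smul_eq_smul_one [Nontrivial U] {b : Module.End k U}
    (hb : ∀ c : k, b ≠ c • (1 : Module.End k U)) {α β : k}
    (hαβ : α • b = β • (1 : Module.End k U)) : α = 0 ∧ β = 0 := by
  have hα : α = 0 := by
    by_contra hα
    apply hb (α⁻¹ * β)
    rw [mul_smul, ← hαβ, smul_smul, inv_mul_cancel₀ hα, one_smul]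
  subst hα
  rw [zero_smul] at hαβ
  refine ⟨rfl, ?_⟩
  rcases smul_eq_zero.mp hαβ.symm with h | h
  · exact h
  · exact absurd h one_ne_zero

end Graph

/-! ### Linear algebra in dimensions `≥ 3`, `2`, `1` -/

section LinAlg

variable {k : Type*} [Field k] {U : Type*} [AddCommGroup U] [Module k U] [FiniteDimensional k U]

/-- In dimension `≥ 3` the anticommutator `E₁₂ E₂₃ + E₂₃ E₁₂ = E₁₃` is not in the span of
`1, E₁₂, E₂₃`. -/
theorem finrank_le_two_of_anticomm
    (H : ∀ a b : Module.End k U, ∃ α β γ : k,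
      a * b + b * a = γ • (1 : Module.End k U) + β • a + α • b) :
    finrank k U ≤ 2 := by
  by_contra hlt
  have h3 : 3 ≤ finrank k U := by omega
  let e := Module.finBasis k U
  let i0 : Fin (finrank k U) := ⟨0, by omega⟩
  let i1 : Fin (finrank k U) := ⟨1, by omega⟩
  let i2 : Fin (finrank k U) := ⟨2, by omega⟩
  have h10 : i1 ≠ i0 := by simp [i0, i1, Fin.ext_iff]
  have h20 : i2 ≠ i0 := by simp [i0, i2, Fin.ext_iff]
  have h21 : i2 ≠ i1 := by simp [i1, i2, Fin.ext_iff]
  let a : Module.End k U := (e.coord i1).smulRight (e i0)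
  let b : Module.End k U := (e.coord i2).smulRight (e i1)
  obtain ⟨α, β, γ, hab⟩ := H a b
  have h := congrArg (fun f : Module.End k U => e.coord i0 (f (e i2))) hab
  simp only [a, b, Module.End.mul_apply, LinearMap.add_apply, LinearMap.smul_apply,
    LinearMap.smulRight_apply, Basis.coord_apply, Basis.repr_self, Module.End.one_apply,
    map_add, map_smul, Finsupp.single_eq_same, one_smul, smul_eq_mul] at h
  simp [Finsupp.single_eq_of_ne h20, Finsupp.single_eq_of_ne h10.symm,
    Finsupp.single_eq_of_ne h20.symm, Finsupp.single_eq_of_ne h21.symm] at h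

theorem charpoly_of_finrank_two (hd : finrank k U = 2) (f : Module.End k U) :
    f.charpoly = X ^ 2 - C (LinearMap.trace k U f) * X + C (LinearMap.det f) := by
  let b := Module.finBasisOfFinrankEq k U hd
  rw [← LinearMap.charpoly_toMatrix f b, Matrix.charpoly_fin_two,
    ← LinearMap.trace_eq_matrix_trace k b f, LinearMap.det_toMatrix]

/-- Cayley–Hamilton in dimension 2. -/
theorem mul_self_of_finrank_two (hd : finrank k U = 2) (f : Module.End k U) :
    f * f = LinearMap.trace k U f • f - LinearMap.det f • (1 : Module.End k U) := by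
  have h := LinearMap.aeval_self_charpoly f
  rw [charpoly_of_finrank_two hd f] at h
  simp only [map_add, map_sub, map_mul, map_pow, aeval_X, aeval_C,
    Algebra.algebraMap_eq_smul_one, smul_mul_assoc, one_mul] at h
  rw [pow_two] at h
  rw [eq_sub_iff_add_eq, ← sub_eq_zero]
  rw [← h]
  abel

/-- In dimension 1 every endomorphism is the scalar `det f`. -/
theorem eq_det_smul_one_of_finrank_one (hd : finrank k U = 1) (f : Module.End k U) :
    f = LinearMap.det f • (1 : Module.End k U) := by
  have hpos : 0 < finrank k U := by omega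
  have : Nontrivial U := Module.finrank_pos_iff.mp hpos
  obtain ⟨x, hx⟩ := exists_ne (0 : U)
  have hall := (finrank_eq_one_iff_of_nonzero' x hx).mp hd
  obtain ⟨c, hc⟩ := hall (f x)
  have hf : f = c • (1 : Module.End k U) := by
    ext w
    obtain ⟨d, rfl⟩ := hall w
    simp only [map_smul, LinearMap.smul_apply, Module.End.one_apply, ← hc]
  have hdet : LinearMap.det f = c := by
    rw [hf, LinearMap.det_smul, hd, map_one, pow_one, mul_one]
  rw [hdet]
  exact hf

end LinAlg

/-! ### The involution trick -/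

section Main

variable {k : Type*} [Field k] {G : Type*} [Group G] {U : Type*} [AddCommGroup U] [Module k U]
  [FiniteDimensional k U] {ρ : Representation k G U} {χ : G →* kˣ} {s : G → k}

/-- `dim U ≤ 2` as soon as the `ρ g` span `End U` (no hypothesis on `k`). -/
theorem finrank_le_two_of_span
    (h : ∀ g, ρ g + ((χ g : kˣ) : k) • ρ g⁻¹ = s g • (1 : Module.End k U))
    (hspan : Submodule.span k (Set.range ρ) = ⊤) : finrank k U ≤ 2 :=
  finrank_le_two_of_anticomm (anticomm_mem h hspan)

/-- **Involution trick, part 1**: over an algebraically closed field an irreducible `ρ` with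
`ρ g + χ g • ρ g⁻¹` scalar for all `g` has dimension at most 2. -/
theorem finrank_le_two [IsAlgClosed k] [Nontrivial U]
    (hirr : ∀ W : Submodule k U, (∀ g, ∀ x ∈ W, ρ g x ∈ W) → W = ⊥ ∨ W = ⊤)
    (h : ∀ g, ρ g + ((χ g : kˣ) : k) • ρ g⁻¹ = s g • (1 : Module.End k U)) :
    finrank k U ≤ 2 :=
  finrank_le_two_of_span h (Burnside.span_range_eq_top ρ hirr)

omit [FiniteDimensional k U] in
theorem exists_not_scalar [Nontrivial U]
    (hirr : ∀ W : Submodule k U, (∀ g, ∀ x ∈ W, ρ g x ∈ W) → W = ⊥ ∨ W = ⊤)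
    (hd : finrank k U = 2) : ∃ g, ∀ c : k, ρ g ≠ c • (1 : Module.End k U) := by
  by_contra hcon
  push Not at hcon
  obtain ⟨x, hx⟩ := exists_ne (0 : U)
  have hinv : ∀ g, ∀ y ∈ Submodule.span k {x}, ρ g y ∈ Submodule.span k {x} := by
    intro g y hy
    obtain ⟨c, hc⟩ := hcon g
    rw [hc]
    simpa using Submodule.smul_mem _ c hy
  rcases hirr (Submodule.span k {x}) hinv with h | h
  · exact hx (by simpa using h)
  · have h1 := finrank_span_singleton hx (K := k)
    rw [h, finrank_top, hd] at h1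
    omega

/-- **Involution trick, part 2** (any field): if `ρ` is irreducible of dimension 2 then `s = tr ρ`
and `χ = det ρ`. -/
theorem trace_det_of_finrank_two [Nontrivial U]
    (hirr : ∀ W : Submodule k U, (∀ g, ∀ x ∈ W, ρ g x ∈ W) → W = ⊥ ∨ W = ⊤)
    (h : ∀ g, ρ g + ((χ g : kˣ) : k) • ρ g⁻¹ = s g • (1 : Module.End k U))
    (hd : finrank k U = 2) (g : G) :
    s g = LinearMap.trace k U (ρ g) ∧ ((χ g : kˣ) : k) = LinearMap.det (ρ g) := by
  have hL : ∀ g', (s g' - LinearMap.trace k U (ρ g')) • ρ g' =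
      (((χ g' : kˣ) : k) - LinearMap.det (ρ g')) • (1 : Module.End k U) := by
    intro g'
    have h1 := rho_mul_self h g'
    have h2 := mul_self_of_finrank_two hd (ρ g')
    rw [h1] at h2
    rw [sub_smul, sub_smul, sub_eq_sub_iff_add_eq_add]
    rw [sub_eq_sub_iff_add_eq_add] at h2
    rw [h2]
    abel
  by_cases hsc : ∀ c : k, ρ g ≠ c • (1 : Module.End k U)
  · obtain ⟨h1, h2⟩ := eq_zero_of_smul_eq_smul_one hsc (hL g)
    exact ⟨sub_eq_zero.mp h1, sub_eq_zero.mp h2⟩
  · push Not at hsc
    obtain ⟨c, hc⟩ := hsc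
    obtain ⟨g0, hg0⟩ := exists_not_scalar hirr hd
    have q1 := rho_mul_self h g
    have q2 := rho_mul_self h g0
    have q3 := rho_mul_self h (g * g0)
    rw [map_mul, hc] at q3
    simp only [smul_mul_assoc, mul_smul_comm, one_mul, q2, map_mul, Units.val_mul] at q3
    have q4 : (c * c * s g0 - s (g * g0) * c) • ρ g0 =
        (c * c * ((χ g0 : kˣ) : k) - ((χ g : kˣ) : k) * ((χ g0 : kˣ) : k)) •
          (1 : Module.End k U) := by
      rw [← sub_eq_zero] at q3 ⊢
      rw [← q3]
      module
    obtain ⟨-, h2⟩ := eq_zero_of_smul_eq_smul_one hg0 q4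
    have hc2 : c * c = ((χ g : kˣ) : k) := by
      have : (c * c - ((χ g : kˣ) : k)) * ((χ g0 : kˣ) : k) = 0 := by linear_combination h2
      rcases mul_eq_zero.mp this with h' | h'
      · exact sub_eq_zero.mp h'
      · exact absurd h' (χ g0).ne_zero
    rw [hc] at q1
    have q1' : (c * c) • (1 : Module.End k U) = (s g * c - ((χ g : kˣ) : k)) • 1 := by
      rw [sub_smul, mul_smul, mul_smul, ← q1]
      simp
    have q1'' : c * c = s g * c - ((χ g : kˣ) : k) := smul_left_injective k one_ne_zero q1'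
    have hcne : c ≠ 0 := by
      rintro rfl
      exact (χ g).ne_zero (by simpa using hc2.symm)
    have hs : s g = 2 * c := by
      have : c * (s g - 2 * c) = 0 := by linear_combination -q1'' - hc2
      rcases mul_eq_zero.mp this with h' | h'
      · exact absurd h' hcne
      · exact sub_eq_zero.mp h'
    refine ⟨?_, ?_⟩
    · rw [hc, map_smul, LinearMap.trace_one, hd, hs]
      simp [mul_comm]
    · rw [hc, LinearMap.det_smul, hd, map_one, mul_one, pow_two]
      exact hc2.symm

/-- **Involution trick, part 2'**: characteristic polynomial in dimension 2. -/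
theorem charpoly_of_finrank_eq_two [Nontrivial U]
    (hirr : ∀ W : Submodule k U, (∀ g, ∀ x ∈ W, ρ g x ∈ W) → W = ⊥ ∨ W = ⊤)
    (h : ∀ g, ρ g + ((χ g : kˣ) : k) • ρ g⁻¹ = s g • (1 : Module.End k U))
    (hd : finrank k U = 2) (g : G) :
    (ρ g).charpoly = X ^ 2 - C (s g) * X + C ((χ g : kˣ) : k) := by
  obtain ⟨h1, h2⟩ := trace_det_of_finrank_two hirr h hd g
  rw [charpoly_of_finrank_two hd, ← h1, ← h2]

/-- **Involution trick, part 3** (any field): in dimension 1, `ρ = ψ` is a character and
`s = ψ + χ ψ⁻¹`. -/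
theorem exists_char_of_finrank_one
    (h : ∀ g, ρ g + ((χ g : kˣ) : k) • ρ g⁻¹ = s g • (1 : Module.End k U))
    (hd : finrank k U = 1) :
    ∃ ψ : G →* kˣ, (∀ g, ρ g = ((ψ g : kˣ) : k) • (1 : Module.End k U)) ∧
      ∀ g, s g = ((ψ g : kˣ) : k) + ((χ g : kˣ) : k) * (((ψ g : kˣ) : k))⁻¹ := by
  have hpos : 0 < finrank k U := by omega
  have : Nontrivial U := Module.finrank_pos_iff.mp hpos
  let ψ : G →* kˣ := (LinearMap.det.comp ρ).toHomUnits
  have hψ : ∀ g, ((ψ g : kˣ) : k) = LinearMap.det (ρ g) := fun g => rfl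
  have hρ : ∀ g, ρ g = ((ψ g : kˣ) : k) • (1 : Module.End k U) := fun g => by
    rw [hψ]
    exact eq_det_smul_one_of_finrank_one hd (ρ g)
  refine ⟨ψ, hρ, fun g => ?_⟩
  have h1 := h g
  rw [hρ g, hρ g⁻¹, smul_smul, ← add_smul] at h1
  have h2 := smul_left_injective k (one_ne_zero (α := Module.End k U)) h1
  rw [← h2, map_inv, Units.val_inv_eq_inv_val]

end Main

end Fermat.Agent.N4F.G.InvolutionTrick
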