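import Mathlib
import Fermat.Agent.N4F.G.InvolutionTrick

/-!
# N4-FULL block G: the 2-dimensional representation produced by the involution trick

`k` algebraically closed, `ρ : Representation k G W` finite-dimensional and nonzero (not necessarily
irreducible), `χ : G →* kˣ`, `s : G → k` with `ρ g + χ g • ρ g⁻¹ = s g • 1` for all `g`.
Then there is `ρ' : G →* M₂(k)` with `charpoly (ρ' g) = X² - s g X + χ g` for all `g`, and
`ρ' g = 1` whenever `ρ g = 1` and `χ g = 1`.

* `exists_matrix_rep` : the irreducible case;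
* `exists_irreducible_subrep` : a minimal nonzero subrepresentation;
* `exists_matrix_rep_of_finiteDimensional` : the general case.
-/

set_option autoImplicit false

open Module Polynomial

namespace Fermat.Agent.N4F.G.InvolutionTrick

section Rep

variable {k : Type*} [Field k] {G : Type*} [Group G] {U : Type*} [AddCommGroup U] [Module k U]
  [FiniteDimensional k U] {ρ : Representation k G U} {χ : G →* kˣ} {s : G → k}

omit [FiniteDimensional k U] in
/-- Mathlib's irreducibility gives the elementary form used in `InvolutionTrick`. -/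
theorem hirr_of_isIrreducible {G : Type*} [Monoid G] (ρ : Representation k G U)
    [ρ.IsIrreducible] (W : Submodule k U) (hW : ∀ g, ∀ x ∈ W, ρ g x ∈ W) : W = ⊥ ∨ W = ⊤ := by
  rcases eq_bot_or_eq_top (⟨W, fun g _ hv => hW g _ hv⟩ : Subrepresentation ρ) with h | h
  · left
    exact congrArg Subrepresentation.toSubmodule h
  · right
    exact congrArg Subrepresentation.toSubmodule h

/-- The diagonal representation `ψ ⊕ χ ψ⁻¹`. -/
def diagRep (ψ χ : G →* kˣ) : G →* Matrix (Fin 2) (Fin 2) k where
  toFun g := Matrix.diagonal ![((ψ g : kˣ) : k), ((χ g : kˣ) : k) * (((ψ g : kˣ) : k))⁻¹]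
  map_one' := by
    rw [← Matrix.diagonal_one]
    congr 1
    ext i
    fin_cases i <;> simp
  map_mul' g g' := by
    rw [Matrix.diagonal_mul_diagonal]
    congr 1
    ext i
    fin_cases i
    · simp
    · simp [mul_mul_mul_comm, mul_comm]

theorem diagRep_charpoly (ψ χ : G →* kˣ) (g : G) :
    (diagRep ψ χ g).charpoly =
      X ^ 2 - C (((ψ g : kˣ) : k) + ((χ g : kˣ) : k) * (((ψ g : kˣ) : k))⁻¹) * X
        + C ((χ g : kˣ) : k) := by
  rw [Matrix.charpoly_fin_two]
  have h1 : (diagRep ψ χ g).trace =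
      ((ψ g : kˣ) : k) + ((χ g : kˣ) : k) * (((ψ g : kˣ) : k))⁻¹ := by
    simp [diagRep]
  have h2 : (diagRep ψ χ g).det = ((χ g : kˣ) : k) := by
    simp [diagRep]
    field_simp
  rw [h1, h2]

/-- **Involution trick, matrix form (irreducible case).** -/
theorem exists_matrix_rep [IsAlgClosed k] [Nontrivial U]
    (hirr : ∀ W : Submodule k U, (∀ g, ∀ x ∈ W, ρ g x ∈ W) → W = ⊥ ∨ W = ⊤)
    (h : ∀ g, ρ g + ((χ g : kˣ) : k) • ρ g⁻¹ = s g • (1 : Module.End k U)) :
    ∃ ρ' : G →* Matrix (Fin 2) (Fin 2) k,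
      (∀ g, (ρ' g).charpoly = X ^ 2 - C (s g) * X + C ((χ g : kˣ) : k)) ∧
      (∀ g, ρ g = 1 → χ g = 1 → ρ' g = 1) := by
  have hle := finrank_le_two hirr h
  have hpos : 0 < finrank k U := Module.finrank_pos
  have hcases : finrank k U = 1 ∨ finrank k U = 2 := by omega
  rcases hcases with hd | hd
  · obtain ⟨ψ, hψ, hs⟩ := exists_char_of_finrank_one h hd
    refine ⟨diagRep ψ χ, fun g => ?_, fun g hg hχ => ?_⟩
    · rw [diagRep_charpoly, ← hs]
    · have h1 : ((ψ g : kˣ) : k) = 1 := by
        have h2 := hψ g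
        rw [hg] at h2
        have h3 : (1 : k) • (1 : Module.End k U) = ((ψ g : kˣ) : k) • (1 : Module.End k U) := by
          rw [one_smul]; exact h2
        exact (smul_left_injective k (one_ne_zero (α := Module.End k U)) h3).symm
      show Matrix.diagonal ![((ψ g : kˣ) : k), ((χ g : kˣ) : k) * (((ψ g : kˣ) : k))⁻¹] = 1
      rw [h1, hχ, ← Matrix.diagonal_one]
      congr 1
      ext i
      fin_cases i <;> simp
  · let b := Module.finBasisOfFinrankEq k U hd
    refine ⟨((LinearMap.toMatrixAlgEquiv b : Module.End k U ≃ₐ[k] _) : Module.End k U →* _).comp ρ,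
      fun g => ?_, fun g hg _ => ?_⟩
    · show (LinearMap.toMatrix b b (ρ g)).charpoly = _
      rw [LinearMap.charpoly_toMatrix]
      exact charpoly_of_finrank_eq_two hirr h hd g
    · show LinearMap.toMatrixAlgEquiv b (ρ g) = 1
      rw [hg, map_one]

end Rep

section Reducible

variable {k : Type*} [Field k] {G : Type*} [Group G] {W : Type*} [AddCommGroup W] [Module k W]
  [FiniteDimensional k W]

/-- A finite-dimensional nonzero representation has a minimal nonzero subrepresentation. -/
theorem exists_irreducible_subrep [Nontrivial W] (ρ : Representation k G W) :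
    ∃ σ : Subrepresentation ρ, σ.toSubmodule ≠ ⊥ ∧
      ∀ W' : Submodule k σ.toSubmodule,
        (∀ g, ∀ x ∈ W', σ.toRepresentation g x ∈ W') → W' = ⊥ ∨ W' = ⊤ := by
  classical
  have hS : ∃ n, ∃ σ : Subrepresentation ρ, σ.toSubmodule ≠ ⊥ ∧ finrank k σ.toSubmodule = n :=
    ⟨finrank k W, ⊤, top_ne_bot, finrank_top k W⟩
  obtain ⟨σ, hσ, hn⟩ := Nat.find_spec hS
  refine ⟨σ, hσ, fun W' hW' => ?_⟩
  by_cases hbot : W' = ⊥
  · exact Or.inl hbot
  right
  let τ : Subrepresentation ρ :=
    ⟨W'.map σ.toSubmodule.subtype, by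
      rintro g _ ⟨x, hx, rfl⟩
      exact ⟨σ.toRepresentation g x, hW' g x hx, rfl⟩⟩
  have hτ : τ.toSubmodule ≠ ⊥ := by
    intro h0
    apply hbot
    have h1 : W'.map σ.toSubmodule.subtype = (⊥ : Submodule k σ.toSubmodule).map
        σ.toSubmodule.subtype := by
      rw [Submodule.map_bot]
      exact h0
    exact Submodule.map_injective_of_injective σ.toSubmodule.injective_subtype h1
  have hmin : Nat.find hS ≤ finrank k τ.toSubmodule := Nat.find_min' hS ⟨τ, hτ, rfl⟩
  have heq : finrank k τ.toSubmodule = finrank k W' :=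
    (LinearEquiv.finrank_eq (σ.toSubmodule.equivSubtypeMap W')).symm
  apply Submodule.eq_top_of_finrank_eq
  have hle := Submodule.finrank_le W'
  omega

/-- **Involution trick, matrix form (general case).** -/
theorem exists_matrix_rep_of_finiteDimensional [IsAlgClosed k] [Nontrivial W]
    {ρ : Representation k G W} {χ : G →* kˣ} {s : G → k}
    (h : ∀ g, ρ g + ((χ g : kˣ) : k) • ρ g⁻¹ = s g • (1 : Module.End k W)) :
    ∃ ρ' : G →* Matrix (Fin 2) (Fin 2) k,
      (∀ g, (ρ' g).charpoly = X ^ 2 - C (s g) * X + C ((χ g : kˣ) : k)) ∧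
      (∀ g, ρ g = 1 → χ g = 1 → ρ' g = 1) := by
  obtain ⟨σ, hσ, hirr⟩ := exists_irreducible_subrep ρ
  have : Nontrivial σ.toSubmodule := (Submodule.nontrivial_iff_ne_bot).mpr hσ
  have h' : ∀ g, σ.toRepresentation g + ((χ g : kˣ) : k) • σ.toRepresentation g⁻¹ =
      s g • (1 : Module.End k σ.toSubmodule) := by
    intro g
    ext x
    have := congrArg (fun f : Module.End k W => f (x : W)) (h g)
    simpa [Subrepresentation.toRepresentation] using this
  obtain ⟨ρ', h1, h2⟩ := exists_matrix_rep hirr h'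
  refine ⟨ρ', h1, fun g hg hχ => h2 g ?_ hχ⟩
  ext x
  simp [Subrepresentation.toRepresentation, hg]

end Reducible

end Fermat.Agent.N4F.G.InvolutionTrick
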