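/-
N4-FULL / block G (helper4): the operator identity `ρ(f) + χ(f) ρ(f)⁻¹ = s` propagates to the
powers of `f` (Dickson recursion `x^{j+2} + y^{j+2} = (x + y)(x^{j+1} + y^{j+1}) - xy (x^j + y^j)`),
so that a "Frobenius POWER density" statement suffices to get the identity for all `g`.
-/
import Fermat.Agent.N4F.G.ResidualRep

set_option autoImplicit false

open Module

namespace Fermat.Agent.N4F.G.ResidualRep

section Pow

variable {k : Type*} [Field k] {G : Type*} [Group G] {M : Type*} [AddCommGroup M] [Module k M]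
  {ρ : Representation k G M} {χ : G →* kˣ}

/-- The Dickson sequence `D_0 = 2`, `D_1 = s`, `D_{j+2} = s D_{j+1} - c D_j`. -/
def dickson (s c : k) : ℕ → k
  | 0 => 2
  | 1 => s
  | (j + 2) => s * dickson s c (j + 1) - c * dickson s c j

/-- If `ρ(f) + χ(f) ρ(f)⁻¹ = s` then `ρ(f^j) + χ(f^j) ρ(f^j)⁻¹ = D_j(s, χ(f))` for all `j`. -/
theorem opIdentity_pow (f : G) (s : k)
    (h : ρ f + ((χ f : kˣ) : k) • ρ f⁻¹ = s • (1 : End k M)) (j : ℕ) :
    ρ (f ^ j) + ((χ (f ^ j) : kˣ) : k) • ρ (f ^ j)⁻¹ =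
      dickson s ((χ f : kˣ) : k) j • (1 : End k M) := by
  set x : End k M := ρ f with hx
  set y : End k M := ((χ f : kˣ) : k) • ρ f⁻¹ with hy
  have hxy : x * y = ((χ f : kˣ) : k) • (1 : End k M) := by
    rw [hy, mul_smul_comm, hx, ← map_mul, mul_inv_cancel, map_one]
  have hyx : y * x = ((χ f : kˣ) : k) • (1 : End k M) := by
    rw [hy, smul_mul_assoc, hx, ← map_mul, inv_mul_cancel, map_one]
  have hpow : ∀ j : ℕ, ρ (f ^ j) + ((χ (f ^ j) : kˣ) : k) • ρ (f ^ j)⁻¹ = x ^ j + y ^ j := by
    intro j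
    rw [map_pow ρ, map_pow χ, Units.val_pow_eq_pow_val, ← inv_pow, map_pow ρ, hy, smul_pow]
  rw [hpow]
  have hcomm : Commute x y := by rw [Commute, SemiconjBy, hxy, hyx]
  induction j using Nat.strong_induction_on with
  | _ j ih =>
    match j, ih with
    | 0, _ =>
      rw [pow_zero, pow_zero, dickson, ← one_add_one_eq_two, add_smul, one_smul]
    | 1, _ =>
      rw [pow_one, pow_one, dickson]
      exact h
    | (j + 2), ih =>
      have e1 := ih (j + 1) (by omega)
      have e0 := ih j (by omega)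
      have key : x ^ (j + 2) + y ^ (j + 2) =
          (x + y) * (x ^ (j + 1) + y ^ (j + 1)) - (x * y) * (x ^ j + y ^ j) := by
        have h1 : y * x ^ (j + 1) = x * y * x ^ j := by
          rw [pow_succ', ← mul_assoc, hcomm.eq]
        have h2 : x * y ^ (j + 1) = x * y * y ^ j := by
          rw [pow_succ', ← mul_assoc]
        rw [add_mul, mul_add, mul_add, mul_add, h1, h2, pow_succ' x (j + 1), pow_succ' y (j + 1)]
        abel
      rw [key, e1, e0, h, hxy, dickson]
      simp only [smul_mul_assoc, one_mul, smul_smul, sub_smul]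

end Pow

end Fermat.Agent.N4F.G.ResidualRep
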